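/-
S43lib / B2 / Tw / InvY (helper5).

Conjugation by `Γ₀(N₁ T)` on `W = Hom(Γ_Y, A)`, `Γ_Y = GammaSY N₁ T Y`, eigenvectors for a character
`ψ₁(d mod T) · ψ_N(d mod N₁)`, and the behaviour of the twist:
`conj_σ (R_ξ φ) = ψ₁(d_σ) ψ_N(d_σ) ξ(d_σ)⁻² · R_ξ φ` for `σ ∈ Γ₀(N₁ T²)`; in particular for `ξ² = ψ₁` the
twist is an eigenvector with character `ψ_N(d mod N₁)` — it has lost the nebentypus at `T`.
-/
import Mathlib
import Fermat.Agent.S43lib.B2.Tw.RY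

set_option autoImplicit false
set_option linter.unusedSectionVars false

noncomputable section

namespace Fermat.Agent.S43lib.B2.Tw

open CongruenceSubgroup Matrix.SpecialLinearGroup ModularForm ModularCurve.Period
open Fermat.Agent.S41lib.HC Fermat.Agent.S16lib.LH Fermat.Agent.S29lib.H
open Fermat.Agent.S43lib.B2.Bridge
open P2MW.S_ModularForm_heckeT_slash_eq_self_of_mem_Gamma0.ModularForm.HeckeSlashInvariance
open scoped MatrixGroups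

variable {N₁ T : ℕ} {Y : Subgroup (ZMod (N₁ * T))ˣ} (hT : T ≠ 0) (hY : Y ≤ unitsOneNT N₁ T)

/-! ### The action of `Γ₀(N₁ T)` on `W` -/

/-- `φ ↦ φ ∘ (b · b⁻¹)` for `b ∈ Γ₀(N₁ T)` -/
def cjBY (b : ↥(Gamma0 (N₁ * T))) (A : Type*) [AddCommGroup A] :
    H (GammaSY N₁ T Y) A →+ H (GammaSY N₁ T Y) A :=
  conjOp (mapGL ℝ (b : SL(2, ℤ)) : GL (Fin 2) ℝ) (gamma0_isNormY hY b) A

theorem cjBY_smul (b : ↥(Gamma0 (N₁ * T))) {K : Type*} [Semiring K] {A : Type*} [AddCommGroup A]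
    [Module K A] (c : K) (φ : H (GammaSY N₁ T Y) A) :
    cjBY hY b A (c • φ) = c • cjBY hY b A φ :=
  conjOp_smul _ _ c φ

/-- the key relation `conj_σ ∘ A_u = A_v ∘ conj_κ` when `α_u σ = κ α_v` -/
theorem cjBY_twAY (σ κ : ↥(Gamma0 (N₁ * T))) (u v : ℤ)
    (hrel : alphaGL T u * (mapGL ℝ (σ : SL(2, ℤ)) : GL (Fin 2) ℝ) =
      (mapGL ℝ (κ : SL(2, ℤ)) : GL (Fin 2) ℝ) * alphaGL T v)
    {A : Type*} [AddCommGroup A] (φ : H (GammaSY N₁ T Y) A) :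
    cjBY hY σ A (twAY hT hY u A φ) = twAY hT hY v A (cjBY hY κ A φ) := by
  unfold cjBY twAY
  rw [← conjOp_mul (mapGL ℝ (σ : SL(2, ℤ)) : GL (Fin 2) ℝ) (alphaGL T u) (gamma0_isNormY hY σ)
      (alpha_isNormY (N₁ := N₁) (Y := Y) hT hY u) (conj_exists_mul _ _ (gamma0_isNormY hY σ)
        (alpha_isNormY (N₁ := N₁) (Y := Y) hT hY u)),
    ← conjOp_mul (alphaGL T v) (mapGL ℝ (κ : SL(2, ℤ)) : GL (Fin 2) ℝ)
      (alpha_isNormY (N₁ := N₁) (Y := Y) hT hY v) (gamma0_isNormY hY κ)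
      (conj_exists_mul _ _ (alpha_isNormY (N₁ := N₁) (Y := Y) hT hY v) (gamma0_isNormY hY κ))]
  exact congrFun (congrArg DFunLike.coe (conjOp_congr _ _ hrel _ _ A)) φ

theorem cjBY_mul (b₁ b₂ : ↥(Gamma0 (N₁ * T))) {A : Type*} [AddCommGroup A]
    (φ : H (GammaSY N₁ T Y) A) : cjBY hY (b₂ * b₁) A φ = cjBY hY b₁ A (cjBY hY b₂ A φ) := by
  unfold cjBY
  rw [← conjOp_mul (mapGL ℝ (b₁ : SL(2, ℤ)) : GL (Fin 2) ℝ) (mapGL ℝ (b₂ : SL(2, ℤ)) : GL (Fin 2) ℝ)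
    (gamma0_isNormY hY b₁) (gamma0_isNormY hY b₂) (conj_exists_mul _ _ (gamma0_isNormY hY b₁)
      (gamma0_isNormY hY b₂))]
  refine congrFun (congrArg DFunLike.coe (conjOp_congr _ _ ?_ _ _ A)) φ
  rw [Subgroup.coe_mul, map_mul]

theorem cjBY_of_mem (b : ↥(Gamma0 (N₁ * T))) (hb : (b : SL(2, ℤ)) ∈ GammaSY N₁ T Y)
    {A : Type*} [AddCommGroup A] (φ : H (GammaSY N₁ T Y) A) : cjBY hY b A φ = φ :=
  conjOp_inner (⟨(b : SL(2, ℤ)), hb⟩ : ↥(GammaSY N₁ T Y)) (gamma0_isNormY hY b) φ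

/-- the lower right entry modulo `T` -/
def dTu : ↥(Gamma0 (N₁ * T)) →* (ZMod T)ˣ :=
  (ZMod.unitsMap (dvd_T_NT N₁ T)).comp (dUnit (N₁ * T))

/-- the lower right entry modulo `N₁` -/
def dNu : ↥(Gamma0 (N₁ * T)) →* (ZMod N₁)ˣ :=
  (ZMod.unitsMap (dvd_mul_right N₁ T)).comp (dUnit (N₁ * T))

theorem coe_dTu (b : ↥(Gamma0 (N₁ * T))) :
    ((dTu b : (ZMod T)ˣ) : ZMod T) = (((b : SL(2, ℤ)) 1 1 : ℤ) : ZMod T) := by
  unfold dTu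
  rw [MonoidHom.comp_apply, ZMod.unitsMap_val, coe_dUnit', ZMod.cast_intCast (dvd_T_NT N₁ T)]

theorem coe_dNu (b : ↥(Gamma0 (N₁ * T))) :
    ((dNu b : (ZMod N₁)ˣ) : ZMod N₁) = (((b : SL(2, ℤ)) 1 1 : ℤ) : ZMod N₁) := by
  unfold dNu
  rw [MonoidHom.comp_apply, ZMod.unitsMap_val, coe_dUnit', ZMod.cast_intCast (dvd_mul_right N₁ T)]

/-! ### Eigenvectors and the twist -/

variable (K : Type*) [Field K] (A : Type*) [AddCommGroup A] [Module K A]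

/-- `φ` is an eigenvector for the conjugation action:
`φ(b γ b⁻¹) = ψ₁(d_b mod T) ψ_N(d_b mod N₁) φ(γ)` -/
def IsEigenY (ψ₁ : (ZMod T)ˣ →* Kˣ) (ψN : (ZMod N₁)ˣ →* Kˣ) (φ : H (GammaSY N₁ T Y) A) : Prop :=
  ∀ b : ↥(Gamma0 (N₁ * T)),
    cjBY hY b A φ = (((ψ₁ (dTu b) * ψN (dNu b) : Kˣ) : Kˣ) : K) • φ

variable [NeZero T]

/-- **the behaviour of the twist of an eigenvector under conjugation by `Γ₀(N₁ T²)`** -/
theorem cjBY_twRY (ψ₁ ξ : (ZMod T)ˣ →* Kˣ) (ψN : (ZMod N₁)ˣ →* Kˣ)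
    (φ : H (GammaSY N₁ T Y) A) (hφ : IsEigenY hY K A ψ₁ ψN φ)
    (σ : ↥(Gamma0 (N₁ * T * T))) :
    cjBY hY (Subgroup.inclusion gamma0_sq_le σ) A (twRY hT hY K A ξ φ) =
      (((ψ₁ (dTu (Subgroup.inclusion gamma0_sq_le σ)) *
          ψN (dNu (Subgroup.inclusion gamma0_sq_le σ)) *
          (ξ (dTu (Subgroup.inclusion gamma0_sq_le σ)))⁻¹ *
          (ξ (dTu (Subgroup.inclusion gamma0_sq_le σ)))⁻¹ : Kˣ) : Kˣ) : K) •
        twRY hT hY K A ξ φ := by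
  set σ' : ↥(Gamma0 (N₁ * T)) := Subgroup.inclusion gamma0_sq_le σ with hσ'
  set dbar : (ZMod T)ˣ := dTu σ' with hdbar
  have hσ10 : ((N₁ * T * T : ℕ) : ℤ) ∣ (σ : SL(2, ℤ)) 1 0 := mem_Gamma0_iff_dvd.mp σ.2
  have hTdvd : (T : ℤ) ∣ (σ : SL(2, ℤ)) 1 0 := by
    refine Dvd.dvd.trans ?_ hσ10
    exact ⟨(N₁ : ℤ) * T, by push_cast; ring⟩
  -- `a d = 1` modulo `T`
  have had : (((σ : SL(2, ℤ)) 0 0 : ℤ) : ZMod T) * (((σ : SL(2, ℤ)) 1 1 : ℤ) : ZMod T) = 1 := by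
    have hdet := det_eq (σ : SL(2, ℤ))
    have h10 : (((σ : SL(2, ℤ)) 1 0 : ℤ) : ZMod T) = 0 :=
      (ZMod.intCast_zmod_eq_zero_iff_dvd _ _).mpr hTdvd
    have := congrArg (fun z : ℤ => (z : ZMod T)) hdet
    simp only [Int.cast_sub, Int.cast_mul, Int.cast_one] at this
    rw [h10, mul_zero, sub_zero] at this
    exact this
  have hd : ((dbar : (ZMod T)ˣ) : ZMod T) = (((σ : SL(2, ℤ)) 1 1 : ℤ) : ZMod T) := coe_dTu σ'
  rw [twRY_apply, map_sum, Finset.smul_sum]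
  rw [← Equiv.sum_comp (Equiv.mulLeft (dbar * dbar))
    (fun u : (ZMod T)ˣ => (((ψ₁ dbar * ψN (dNu σ') * (ξ dbar)⁻¹ * (ξ dbar)⁻¹ : Kˣ) : Kˣ) : K) •
      ((ξ u : Kˣ) : K) • twAY hT hY (uLift u) A φ)]
  refine Finset.sum_congr rfl fun u _ => ?_
  rw [Equiv.coe_mulLeft, cjBY_smul]
  -- the relation for `u`
  have huv : (T : ℤ) ∣ (σ : SL(2, ℤ)) 1 1 * uLift u -
      (σ : SL(2, ℤ)) 0 0 * uLift (dbar * dbar * u) := by
    rw [← ZMod.intCast_zmod_eq_zero_iff_dvd]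
    push_cast
    rw [uLift_cast, uLift_cast, Units.val_mul, Units.val_mul, hd]
    linear_combination (-(((σ : SL(2, ℤ)) 1 1 : ℤ) : ZMod T) * (u : ZMod T)) * had
  obtain ⟨κ, hrel, hκ11, -, -⟩ := alpha_mul_gamma0 hT σ _ _ huv
  have h1 := cjBY_twAY hT hY σ' (Subgroup.inclusion gamma0_sq_le κ) _ _ hrel φ
  rw [h1, hφ (Subgroup.inclusion gamma0_sq_le κ), twAY_smul hT hY K A, smul_smul, smul_smul]
  congr 1
  have h2 : dUnit (N₁ * T) (Subgroup.inclusion gamma0_sq_le κ) = dUnit (N₁ * T) σ' :=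
    dUnit_eq_of_dvd σ' (Subgroup.inclusion gamma0_sq_le κ) hκ11
  have h3 : dTu (Subgroup.inclusion gamma0_sq_le κ) = dbar := by
    unfold dTu at hdbar ⊢
    rw [MonoidHom.comp_apply, h2, hdbar, MonoidHom.comp_apply]
  have h4 : dNu (Subgroup.inclusion gamma0_sq_le κ) = dNu σ' := by
    unfold dNu
    rw [MonoidHom.comp_apply, h2, MonoidHom.comp_apply]
  rw [h3, h4, map_mul, map_mul]
  simp only [Units.val_mul]
  have h5 : ((ξ dbar : Kˣ) : K) * (((ξ dbar)⁻¹ : Kˣ) : K) = 1 := by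
    rw [← Units.val_mul, mul_inv_cancel, Units.val_one]
  linear_combination (((ψ₁ dbar : Kˣ) : K) * ((ψN (dNu σ') : Kˣ) : K) * ((ξ u : Kˣ) : K) *
    (1 + ((ξ dbar : Kˣ) : K) * (((ξ dbar)⁻¹ : Kˣ) : K))) * (-h5)

/-- for `ξ² = ψ₁` the twist is an eigenvector with character `ψ_N(d mod N₁)` -/
theorem cjBY_twRY_of_sq (ψ₁ ξ : (ZMod T)ˣ →* Kˣ) (hξ : ∀ u, ξ u * ξ u = ψ₁ u)
    (ψN : (ZMod N₁)ˣ →* Kˣ) (φ : H (GammaSY N₁ T Y) A) (hφ : IsEigenY hY K A ψ₁ ψN φ)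
    (σ : ↥(Gamma0 (N₁ * T * T))) :
    cjBY hY (Subgroup.inclusion gamma0_sq_le σ) A (twRY hT hY K A ξ φ) =
      ((ψN (dNu (Subgroup.inclusion gamma0_sq_le σ)) : Kˣ) : K) • twRY hT hY K A ξ φ := by
  rw [cjBY_twRY hT hY K A ψ₁ ξ ψN φ hφ σ]
  congr 2
  rw [← hξ]
  generalize ξ (dTu (Subgroup.inclusion gamma0_sq_le σ)) = x
  generalize ψN (dNu (Subgroup.inclusion gamma0_sq_le σ)) = y
  rw [mul_comm (x * x) y, ← mul_assoc y x x, mul_inv_cancel_right, mul_inv_cancel_right]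

end Fermat.Agent.S43lib.B2.Tw
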