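/-
S43lib / B2 / Tw / InjY (helper5).

**Core-B for the partial twist.**  The twist `R_ξ` is injective on the eigenvectors of the conjugation
action of `Γ₀(N₁ T)` on `W = Hom(Γ_Y, A)` with character `ψ₁(d mod T) ψ_N(d mod N₁)`, `ψ₁` primitive of
odd order at every prime of the squarefree `T` (prime to `N₁`), `ψ_N` trivial on `Y`.
-/
import Mathlib
import Fermat.Agent.S43lib.B2.Tw.TestPairY
import Fermat.Agent.S43lib.B2.Bridge.Inj

set_option autoImplicit false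
set_option linter.unusedSectionVars false

noncomputable section

namespace Fermat.Agent.S43lib.B2.Tw

open CongruenceSubgroup Matrix.SpecialLinearGroup ModularForm ModularCurve.Period
open Fermat.Agent.S41lib.HC Fermat.Agent.S16lib.LH Fermat.Agent.S29lib.H
open Fermat.Agent.S43lib.B2.Bridge
open P2MW.S_ModularForm_heckeT_slash_eq_self_of_mem_Gamma0.ModularForm.HeckeSlashInvariance
open scoped MatrixGroups

variable {N₁ T : ℕ} {Y : Subgroup (ZMod (N₁ * T))ˣ}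

/-- `Γ_Y` as a subgroup of `Γ₀(N₁ T)` -/
def sySub (N₁ T : ℕ) (Y : Subgroup (ZMod (N₁ * T))ˣ) : Subgroup ↥(Gamma0 (N₁ * T)) :=
  (GammaSY N₁ T Y).subgroupOf (Gamma0 (N₁ * T))

theorem mem_sySub {b : ↥(Gamma0 (N₁ * T))} :
    b ∈ sySub N₁ T Y ↔ (b : SL(2, ℤ)) ∈ GammaSY N₁ T Y :=
  Subgroup.mem_subgroupOf

theorem sySub_normal (hY : Y ≤ unitsOneNT N₁ T) : (sySub N₁ T Y).Normal := by
  refine ⟨fun k hk g => ?_⟩
  rw [mem_sySub] at hk ⊢
  have h1 := conjHom_mapGL (g : SL(2, ℤ)) (gamma0_isNormY hY g) ⟨(k : SL(2, ℤ)), hk⟩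
  have h2 : ((g * k * g⁻¹ : ↥(Gamma0 (N₁ * T))) : SL(2, ℤ)) = (g : SL(2, ℤ)) * (k : SL(2, ℤ)) *
      (g : SL(2, ℤ))⁻¹ := by
    rw [Subgroup.coe_mul, Subgroup.coe_mul, Subgroup.coe_inv]
  rw [h2, ← h1]
  exact (conjHom _ (gamma0_isNormY hY g) ⟨(k : SL(2, ℤ)), hk⟩).2

instance sySub_finiteIndex [NeZero (N₁ * T * T)] : (sySub N₁ T Y).FiniteIndex :=
  Subgroup.instFiniteIndex_subgroupOf _ _

variable (hT : T ≠ 0) (hY : Y ≤ unitsOneNT N₁ T)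
variable (K : Type*) [Field K] (A : Type*) [AddCommGroup A] [Module K A]

/-- `cjBY b` as a linear map -/
def cjBYL (b : ↥(Gamma0 (N₁ * T))) : Module.End K (H (GammaSY N₁ T Y) A) :=
  (CosetData.ofHom (conjHom (mapGL ℝ (b : SL(2, ℤ)) : GL (Fin 2) ℝ) (gamma0_isNormY hY b))).opₗ K A

@[simp] theorem cjBYL_apply (b : ↥(Gamma0 (N₁ * T))) (φ : H (GammaSY N₁ T Y) A) :
    cjBYL hY K A b φ = cjBY hY b A φ := rfl

/-- the representation `b ↦ (φ ↦ φ ∘ (b⁻¹ · b))` -/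
def rhoBY : ↥(Gamma0 (N₁ * T)) →* Module.End K (H (GammaSY N₁ T Y) A) where
  toFun b := cjBYL hY K A b⁻¹
  map_one' := by
    refine LinearMap.ext fun φ => ?_
    rw [cjBYL_apply, Module.End.one_apply]
    exact cjBY_of_mem hY _ (by rw [inv_one]; exact (GammaSY N₁ T Y).one_mem) φ
  map_mul' b₁ b₂ := by
    refine LinearMap.ext fun φ => ?_
    rw [Module.End.mul_apply, cjBYL_apply, cjBYL_apply, cjBYL_apply, mul_inv_rev]
    exact cjBY_mul hY b₁⁻¹ b₂⁻¹ φ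

theorem rhoBY_apply (b : ↥(Gamma0 (N₁ * T))) (φ : H (GammaSY N₁ T Y) A) :
    rhoBY hY K A b φ = cjBY hY b⁻¹ A φ := rfl

theorem dTu_of_mem_GammaSY (hY : Y ≤ unitsOneNT N₁ T) (b : ↥(Gamma0 (N₁ * T)))
    (hb : (b : SL(2, ℤ)) ∈ GammaSY N₁ T Y) : dTu b = 1 := by
  have h1 : dUnit (N₁ * T) b ∈ Y := dUnit_mem_of_mem_GammaSY hb
  exact hY h1

theorem dNu_of_mem_GammaSY (b : ↥(Gamma0 (N₁ * T)))
    (hb : (b : SL(2, ℤ)) ∈ GammaSY N₁ T Y) :
    ∃ y ∈ Y, dNu b = ZMod.unitsMap (dvd_mul_right N₁ T) y :=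
  ⟨dUnit (N₁ * T) b, dUnit_mem_of_mem_GammaSY hb, rfl⟩

theorem dNu_eq_of_dvd (b b' : ↥(Gamma0 (N₁ * T)))
    (hbb : (N₁ : ℤ) ∣ (b' : SL(2, ℤ)) 1 1 - (b : SL(2, ℤ)) 1 1) : dNu b' = dNu b := by
  apply Units.ext
  rw [coe_dNu, coe_dNu, ZMod.intCast_eq_intCast_iff_dvd_sub]
  have h2 := hbb.neg_right
  rwa [neg_sub] at h2

variable [NeZero T]

/-- **Core-B for the partial twist** -/
theorem coreBY [CharZero K] [NeZero (N₁ * T * T)] (hsq : Squarefree T)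
    (hcop : Nat.Coprime N₁ T) (ψ₁ ξ : (ZMod T)ˣ →* Kˣ) (ψN : (ZMod N₁)ˣ →* Kˣ)
    (hψY : ∀ y ∈ Y, ψN (ZMod.unitsMap (dvd_mul_right N₁ T) y) = 1)
    (hprim : ∀ (t : ℕ) (ht : t ∣ T), t.Prime →
      ∃ x : (ZMod T)ˣ, ZMod.unitsMap (Nat.div_dvd_of_dvd ht) x = 1 ∧ ψ₁ x * ψ₁ x ≠ 1)
    (φ : H (GammaSY N₁ T Y) A) (hφ : IsEigenY hY K A ψ₁ ψN φ)
    (h0 : twRY hT hY K A ξ φ = 0) : φ = 0 := by
  classical
  have := sySub_normal hY
  let _i : Fintype (↥(Gamma0 (N₁ * T)) ⧸ sySub N₁ T Y) := Subgroup.fintypeQuotientOfFiniteIndex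
  -- the character
  set Ψ : ↥(Gamma0 (N₁ * T)) →* Kˣ := ((ψ₁.comp dTu) * (ψN.comp dNu))⁻¹ with hΨ
  have hΨ_apply : ∀ b, Ψ b = (ψ₁ (dTu b) * ψN (dNu b))⁻¹ := fun b => rfl
  have hdT : ∀ b : ↥(Gamma0 (N₁ * T)),
      dT₁ (dvd_of_mul_eq (N₁ := N₁) T 1 (mul_one T)) b = dTu b := fun b => rfl
  -- the test pairs
  have hpairs : ∀ u : (ZMod T)ˣ, u ≠ 1 → ∃ s s' : ↥(Gamma0 (N₁ * T)),
      alphaGL T (uLift u - uLift (1 : (ZMod T)ˣ)) *
          (mapGL ℝ (s : SL(2, ℤ)) : GL (Fin 2) ℝ) =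
        (mapGL ℝ (s' : SL(2, ℤ)) : GL (Fin 2) ℝ) *
          alphaGL T (uLift u - uLift (1 : (ZMod T)ˣ)) ∧
      ψ₁ (dTu s) * ψN (dNu s) ≠ ψ₁ (dTu s') * ψN (dNu s') := by
    intro u hu
    have hnd : ¬ (T : ℤ) ∣ uLift u - uLift (1 : (ZMod T)ˣ) := by
      intro h
      apply hu
      apply Units.ext
      have h2 := (ZMod.intCast_zmod_eq_zero_iff_dvd _ _).mpr h
      push_cast at h2
      rw [uLift_cast, uLift_cast] at h2
      exact sub_eq_zero.mp h2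
    obtain ⟨t₁, ht₁, ht₁T, ht₁n⟩ := exists_prime_not_dvd_of_squarefree hsq _ hnd
    have hw : IsCoprime (uLift u - uLift (1 : (ZMod T)ˣ)) (t₁ : ℤ) := by
      have hp : Prime (t₁ : ℤ) := Nat.prime_iff_prime_int.mp ht₁
      exact ((Prime.coprime_iff_not_dvd hp).mpr ht₁n).symm
    obtain ⟨x, hx1, hx2⟩ := hprim t₁ ht₁T ht₁
    obtain ⟨s, s', hrel, hs, hs', hN⟩ := exists_testPairN (N₁ := N₁) hT (mul_one T) hcop _
      (one_dvd _) t₁ ht₁T hw x hx1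
    refine ⟨s, s', hrel, ?_⟩
    rw [hdT] at hs hs'
    rw [hs, hs', map_inv, dNu_eq_of_dvd s s' hN]
    intro h
    apply hx2
    rw [mul_eq_one_iff_eq_inv]
    exact mul_right_cancel h
  choose! sf sf' hsf using hpairs
  -- the relation
  have hrel : (1 : K) • φ + ∑ u ∈ (Finset.univ : Finset (ZMod T)ˣ).erase 1,
      ((ξ u : Kˣ) : K) • twALY hT hY K A (uLift u - uLift (1 : (ZMod T)ˣ)) φ = 0 := by
    have h1 := congrArg (twAY hT hY (-(uLift (1 : (ZMod T)ˣ))) A) h0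
    rw [twRY_apply, map_sum, map_zero] at h1
    have h2 : ∀ u : (ZMod T)ˣ, twAY hT hY (-(uLift (1 : (ZMod T)ˣ))) A
        (((ξ u : Kˣ) : K) • twAY hT hY (uLift u) A φ) =
        ((ξ u : Kˣ) : K) • twALY hT hY K A (uLift u - uLift (1 : (ZMod T)ˣ)) φ := by
      intro u
      rw [twAY_smul hT hY K A, twALY_apply, ← twAY_add]
      congr 2
    rw [Finset.sum_congr rfl fun u _ => h2 u,
      ← Finset.add_sum_erase Finset.univ _ (Finset.mem_univ (1 : (ZMod T)ˣ))] at h1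
    rw [map_one, Units.val_one, sub_self, twALY_apply, twAY_zero] at h1
    exact h1
  refine eq_zero_of_eigen_relation (sySub N₁ T Y) (rhoBY hY K A) ?_ Ψ ?_ ?_ φ ?_
    ((Finset.univ : Finset (ZMod T)ˣ).erase 1)
    (fun u => twALY hT hY K A (uLift u - uLift (1 : (ZMod T)ˣ)))
    (fun u => (sf u)⁻¹) (fun u => (sf' u)⁻¹) ?_ ?_ 1 one_ne_zero
    (fun u => ((ξ u : Kˣ) : K)) hrel
  · -- trivial on `Γ_Y`
    intro b hb
    refine LinearMap.ext fun v => ?_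
    rw [rhoBY_apply, Module.End.one_apply]
    exact cjBY_of_mem hY _ (by
      rw [Subgroup.coe_inv]
      exact (GammaSY N₁ T Y).inv_mem (mem_sySub.mp hb)) v
  · intro b hb
    obtain ⟨y, hy, hyb⟩ := dNu_of_mem_GammaSY b (mem_sySub.mp hb)
    rw [hΨ_apply, dTu_of_mem_GammaSY hY b (mem_sySub.mp hb), map_one, hyb, hψY y hy, mul_one,
      inv_one]
  · exact Nat.cast_ne_zero.mpr Fintype.card_ne_zero
  · -- eigenvector
    intro b
    rw [rhoBY_apply, hφ b⁻¹, hΨ_apply, map_inv, map_inv, map_inv, map_inv, mul_inv]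
  · -- the commutation with the test pairs
    intro u hu
    have hu1 : u ≠ 1 := Finset.ne_of_mem_erase hu
    rw [rhoBY_apply, rhoBY_apply, inv_inv, inv_inv, twALY_apply]
    exact cjBY_twAY hT hY (sf u) (sf' u) _ _ (hsf u hu1).1 φ
  · intro u hu
    have hu1 : u ≠ 1 := Finset.ne_of_mem_erase hu
    rw [map_inv, map_inv, hΨ_apply, hΨ_apply, inv_inv, inv_inv]
    exact (hsf u hu1).2

end Fermat.Agent.S43lib.B2.Tw
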