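/-
S43lib / B2 / Tw / ExtY (helper5).

Descent of the twisted homomorphism from `Γ_Y = GammaSY N₁ T Y` to the larger group
`GammaD (N₁ T²) X` (`X ⊇ unitsY N₁ T Y` a subgroup of `(ℤ/N₁T²)ˣ` on which `ψ_N` is trivial), and the
transport of the eigen-properties along (injective) restrictions:

* `resOp_injective`, `resOp_conjOp`, `resOp_smul` (generalities);
* `gamma0_isNormD`, `cjD` : conjugation by `Γ₀(M)` on `Hom(GammaD M X, A)`; `cjD_resOp`;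
* `exists_descent` : a homomorphism on `Γ_Y` on which `Γ₀(N₁ T²)` acts (by conjugation) through
  `ψ_N(d mod N₁)` is the restriction of a homomorphism on `GammaD (N₁ T²) X`, with the same conjugation law;
* `heckeD_eigen_iff_resOp` : eigenvectors of `T_ℓ` correspond under restriction;
* `isParabolicHom_of_eigen` : an eigenvector of `T_{ℓ₀}`, `ℓ₀ ≡ 1 (M)`, with eigenvalue `≠ 1 + ℓ₀` is
  parabolic (helper1's `heckeD_sub_isParabolicHom`).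
-/
import Mathlib
import Fermat.Agent.S43lib.B2.Tw.InjY
import Fermat.Agent.S43lib.B1x.EisD

set_option autoImplicit false
set_option linter.unusedSectionVars false

noncomputable section

namespace Fermat.Agent.S43lib.B2.Tw

open CongruenceSubgroup Matrix.SpecialLinearGroup ModularForm ModularCurve.Period
open Fermat.Agent.S41lib.HC Fermat.Agent.S16lib.LH Fermat.Agent.S29lib.H
open Fermat.Agent.S43lib.B2.Bridge
open P2MW.S_ModularForm_heckeT_slash_eq_self_of_mem_Gamma0.ModularForm.HeckeSlashInvariance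
open scoped MatrixGroups

/-! ### Generalities on restriction -/

section General

variable {Γ₁ Γ₂ : Subgroup SL(2, ℤ)}

theorem resOp_injective (h : Γ₂ ≤ Γ₁) [Γ₂.FiniteIndex] {A : Type*} [AddCommGroup A]
    [IsAddTorsionFree A] : Function.Injective (resOp h A) := by
  rw [injective_iff_map_eq_zero]
  intro φ hφ
  have hfi : (Γ₂.subgroupOf Γ₁).FiniteIndex := inferInstance
  refine hom_eq_zero_of_restrict (Γ₂.subgroupOf Γ₁) hfi.index_ne_zero φ ?_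
  intro k
  have h1 := congrFun (congrArg DFunLike.coe hφ)
    (Additive.ofMul (⟨((k : ↥Γ₁) : SL(2, ℤ)), Subgroup.mem_subgroupOf.mp k.2⟩ : ↥Γ₂))
  rw [resOp_apply] at h1
  exact h1

theorem resOp_smul (h : Γ₂ ≤ Γ₁) {K : Type*} [Semiring K] {A : Type*} [AddCommGroup A]
    [Module K A] (c : K) (φ : H Γ₁ A) : resOp h A (c • φ) = c • resOp h A φ :=
  op_smul _ c φ

theorem resOp_conjOp (h : Γ₂ ≤ Γ₁) (g : GL (Fin 2) ℝ)
    (h₁ : ∀ γ : ↥Γ₁, ∃ κ : ↥Γ₁, g * (mapGL ℝ (γ : SL(2, ℤ)) : GL (Fin 2) ℝ) =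
      (mapGL ℝ ((κ : ↥Γ₁) : SL(2, ℤ)) : GL (Fin 2) ℝ) * g)
    (h₂ : ∀ γ : ↥Γ₂, ∃ κ : ↥Γ₂, g * (mapGL ℝ (γ : SL(2, ℤ)) : GL (Fin 2) ℝ) =
      (mapGL ℝ ((κ : ↥Γ₂) : SL(2, ℤ)) : GL (Fin 2) ℝ) * g)
    {A : Type*} [AddCommGroup A] (φ : H Γ₁ A) :
    resOp h A (conjOp g h₁ A φ) = conjOp g h₂ A (resOp h A φ) := by
  refine AddMonoidHom.ext fun a => ?_
  obtain ⟨γ, rfl⟩ : ∃ γ : ↥Γ₂, Additive.ofMul γ = a := ⟨Additive.toMul a, rfl⟩
  rw [resOp_apply, conjOp_apply, conjOp_apply, resOp_apply]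
  congr 2
  apply Subtype.ext
  refine conjHom_unique g h₁ (Subgroup.inclusion h γ) _ ?_
  exact conjHom_rel g h₂ γ

end General

/-! ### Conjugation by `Γ₀(M)` on `Hom(GammaD M X, A)` -/

section CjD

variable {M : ℕ} (X : Subgroup (ZMod M)ˣ)

theorem GammaD_mono {X X' : Subgroup (ZMod M)ˣ} (h : X ≤ X') : GammaD M X ≤ GammaD M X' := by
  intro γ hγ
  obtain ⟨h0, hX⟩ := mem_GammaD.mp hγ
  exact mem_GammaD.mpr ⟨h0, h hX⟩

instance GammaD_finiteIndex [NeZero M] : (GammaD M X).FiniteIndex :=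
  Subgroup.finiteIndex_of_le (Gamma_le_GammaD M X)

/-- `Γ₀(M)` normalises `GammaD M X` -/
theorem gamma0_isNormD (b : ↥(Gamma0 M)) (γ : ↥(GammaD M X)) :
    ∃ κ : ↥(GammaD M X), (mapGL ℝ (b : SL(2, ℤ)) : GL (Fin 2) ℝ) *
      (mapGL ℝ (γ : SL(2, ℤ)) : GL (Fin 2) ℝ) =
      (mapGL ℝ ((κ : ↥(GammaD M X)) : SL(2, ℤ)) : GL (Fin 2) ℝ) *
        (mapGL ℝ (b : SL(2, ℤ)) : GL (Fin 2) ℝ) := by
  have hmem : ((b * toGamma0 X γ * b⁻¹ : ↥(Gamma0 M)) : SL(2, ℤ)) ∈ GammaD M X := by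
    apply mem_GammaD_of_dUnit
    rw [map_mul, map_mul, map_inv, mul_comm (dUnit M b), mul_inv_cancel_right]
    exact dUnit_toGamma0_mem X γ
  refine ⟨⟨_, hmem⟩, ?_⟩
  show _ = (mapGL ℝ ((b * toGamma0 X γ * b⁻¹ : ↥(Gamma0 M)) : SL(2, ℤ)) : GL (Fin 2) ℝ) * _
  rw [Subgroup.coe_mul, Subgroup.coe_mul, Subgroup.coe_inv, coe_toGamma0, map_mul, map_mul,
    map_inv, inv_mul_cancel_right]

/-- `φ ↦ φ ∘ (b · b⁻¹)` for `b ∈ Γ₀(M)` -/
def cjD (b : ↥(Gamma0 M)) (A : Type*) [AddCommGroup A] : H (GammaD M X) A →+ H (GammaD M X) A :=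
  conjOp (mapGL ℝ (b : SL(2, ℤ)) : GL (Fin 2) ℝ) (gamma0_isNormD X b) A

/-- the conjugate `b γ b⁻¹` as an element of `GammaD M X` -/
def conjD (b : ↥(Gamma0 M)) : ↥(GammaD M X) →* ↥(GammaD M X) :=
  conjHom (mapGL ℝ (b : SL(2, ℤ)) : GL (Fin 2) ℝ) (gamma0_isNormD X b)

theorem coe_conjD (b : ↥(Gamma0 M)) (γ : ↥(GammaD M X)) :
    ((conjD X b γ : ↥(GammaD M X)) : SL(2, ℤ)) = (b : SL(2, ℤ)) * (γ : SL(2, ℤ)) * (b : SL(2, ℤ))⁻¹ :=
  conjHom_mapGL (b : SL(2, ℤ)) (gamma0_isNormD X b) γ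

theorem cjD_apply (b : ↥(Gamma0 M)) {A : Type*} [AddCommGroup A] (φ : H (GammaD M X) A)
    (γ : ↥(GammaD M X)) : cjD X b A φ (Additive.ofMul γ) = φ (Additive.ofMul (conjD X b γ)) :=
  conjOp_apply _ _ φ γ

theorem cjD_smul (b : ↥(Gamma0 M)) {K : Type*} [Semiring K] {A : Type*} [AddCommGroup A]
    [Module K A] (c : K) (φ : H (GammaD M X) A) : cjD X b A (c • φ) = c • cjD X b A φ :=
  conjOp_smul _ _ c φ

theorem cjD_isParabolicHom (b : ↥(Gamma0 M)) {A : Type*} [AddCommGroup A] {φ : H (GammaD M X) A}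
    (hφ : IsParabolicHom (GammaD M X) φ) : IsParabolicHom (GammaD M X) (cjD X b A φ) :=
  conjOp_isParabolicHom _ _ hφ

end CjD

/-! ### Change of level -/

section Level

variable {M₁ M₂ : ℕ} (hdvd : M₁ ∣ M₂) (X₁ : Subgroup (ZMod M₁)ˣ) (X₂ : Subgroup (ZMod M₂)ˣ)

include hdvd in
/-- conjugation commutes with restriction between levels -/
theorem cjD_resOp (h : GammaD M₂ X₂ ≤ GammaD M₁ X₁) (b : ↥(Gamma0 M₂)) {A : Type*}
    [AddCommGroup A] (φ : H (GammaD M₁ X₁) A) :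
    cjD X₂ b A (resOp h A φ) =
      resOp h A (cjD X₁ (Subgroup.inclusion (Gamma0_le_of_dvd hdvd) b) A φ) :=
  (resOp_conjOp h _ (gamma0_isNormD X₁ (Subgroup.inclusion (Gamma0_le_of_dvd hdvd) b))
    (gamma0_isNormD X₂ b) φ).symm

variable {ℓ : ℕ} [Fact ℓ.Prime] (hℓ₁ : ¬ ℓ ∣ M₁) (hℓ₂ : ¬ ℓ ∣ M₂)

include hdvd in
/-- eigenvectors of `T_ℓ` correspond under restriction between levels -/
theorem heckeD_eigen_iff_resOp [NeZero M₂] (h : GammaD M₂ X₂ ≤ GammaD M₁ X₁) {K : Type*}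
    [Semiring K] {A : Type*} [AddCommGroup A] [Module K A] [IsAddTorsionFree A]
    (φ : H (GammaD M₁ X₁) A) (c : K) :
    heckeD hℓ₂ X₂ A (resOp h A φ) = c • resOp h A φ ↔ heckeD hℓ₁ X₁ A φ = c • φ := by
  rw [heckeD_resOp hℓ₁ hℓ₂ hdvd X₁ X₂ h φ, ← resOp_smul]
  exact (resOp_injective h).eq_iff

include hdvd in
/-- the conjugation law corresponds under restriction between levels -/
theorem cjD_eigen_of_resOp [NeZero M₂] (h : GammaD M₂ X₂ ≤ GammaD M₁ X₁) {K : Type*}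
    [Semiring K] {A : Type*} [AddCommGroup A] [Module K A]
    (φ : H (GammaD M₁ X₁) A) (b : ↥(Gamma0 M₂)) (c : K)
    (hφ : cjD X₁ (Subgroup.inclusion (Gamma0_le_of_dvd hdvd) b) A φ = c • φ) :
    cjD X₂ b A (resOp h A φ) = c • resOp h A φ := by
  rw [cjD_resOp hdvd X₁ X₂ h b φ, hφ, resOp_smul]

end Level

/-! ### Parabolicity of non-Eisenstein eigenvectors -/

theorem isParabolicHom_of_eigen {M ℓ₀ : ℕ} [Fact ℓ₀.Prime] (hℓ₀ : ¬ ℓ₀ ∣ M)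
    (h1 : (M : ℤ) ∣ (ℓ₀ : ℤ) - 1) (X : Subgroup (ZMod M)ˣ) {K : Type*} [Field K]
    {A : Type*} [AddCommGroup A] [Module K A] [IsAddTorsionFree A] (φ : H (GammaD M X) A)
    (c : K) (hφ : heckeD hℓ₀ X A φ = c • φ) (hc : c ≠ 1 + (ℓ₀ : K)) :
    IsParabolicHom (GammaD M X) φ := by
  have h2 := heckeD_sub_isParabolicHom hℓ₀ h1 X φ
  intro γ hγ
  have h3 := h2 γ hγ
  rw [hφ, AddMonoidHom.sub_apply, AddMonoidHom.smul_apply, AddMonoidHom.smul_apply] at h3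
  have h4 : ((1 + ℓ₀ : ℕ)) • φ (Additive.ofMul γ) = ((1 + (ℓ₀ : K)) : K) • φ (Additive.ofMul γ) := by
    rw [← Nat.cast_smul_eq_nsmul K]
    push_cast
    rfl
  rw [h4, ← sub_smul] at h3
  rcases smul_eq_zero.mp h3 with h5 | h5
  · exact absurd (sub_eq_zero.mp h5) hc
  · exact h5

/-! ### The descent -/

section Descent

variable {N₁ T : ℕ} {Y : Subgroup (ZMod (N₁ * T))ˣ} (hY : Y ≤ unitsOneNT N₁ T)

theorem dvd_N_NTT (N₁ T : ℕ) : N₁ ∣ N₁ * T * T := ⟨T * T, by ring⟩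

/-- the lower right entry modulo `N₁` of an element of `Γ₀(N₁ T²)` -/
def dNu2 : ↥(Gamma0 (N₁ * T * T)) →* (ZMod N₁)ˣ :=
  (ZMod.unitsMap (dvd_N_NTT N₁ T)).comp (dUnit (N₁ * T * T))

theorem coe_dNu2 (b : ↥(Gamma0 (N₁ * T * T))) :
    ((dNu2 b : (ZMod N₁)ˣ) : ZMod N₁) = (((b : SL(2, ℤ)) 1 1 : ℤ) : ZMod N₁) := by
  unfold dNu2
  rw [MonoidHom.comp_apply, ZMod.unitsMap_val, coe_dUnit', ZMod.cast_intCast (dvd_N_NTT N₁ T)]

theorem dNu_inclusion (b : ↥(Gamma0 (N₁ * T * T))) :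
    dNu (Subgroup.inclusion gamma0_sq_le b) = dNu2 b := by
  apply Units.ext
  rw [coe_dNu, coe_dNu2]
  rfl

/-- **the descent** -/
theorem exists_descent [NeZero (N₁ * T * T)] (X : Subgroup (ZMod (N₁ * T * T))ˣ)
    (hYX : unitsY N₁ T Y ≤ X) {K : Type*} [Field K] [CharZero K] {A : Type*} [AddCommGroup A]
    [Module K A] [IsAddTorsionFree A] (ψN : (ZMod N₁)ˣ →* Kˣ)
    (hψX : ∀ x ∈ X, ψN (ZMod.unitsMap (dvd_N_NTT N₁ T) x) = 1)
    (φ : H (GammaSY N₁ T Y) A)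
    (hφ : ∀ σ : ↥(Gamma0 (N₁ * T * T)), cjBY hY (Subgroup.inclusion gamma0_sq_le σ) A φ =
      ((ψN (dNu (Subgroup.inclusion gamma0_sq_le σ)) : Kˣ) : K) • φ) :
    ∃ Φ : H (GammaD (N₁ * T * T) X) A, resOp (GammaD_mono hYX) A Φ = φ ∧
      ∀ b : ↥(Gamma0 (N₁ * T * T)), cjD X b A Φ = ((ψN (dNu2 b) : Kˣ) : K) • Φ := by
  have hle : GammaSY N₁ T Y ≤ GammaD (N₁ * T * T) X := GammaD_mono hYX
  have hn : ∀ (g : ↥(GammaD (N₁ * T * T) X)) (γ : ↥(GammaSY N₁ T Y)),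
      ∃ κ : ↥(GammaSY N₁ T Y), (mapGL ℝ (g : SL(2, ℤ)) : GL (Fin 2) ℝ) *
        (mapGL ℝ (γ : SL(2, ℤ)) : GL (Fin 2) ℝ) =
        (mapGL ℝ ((κ : ↥(GammaSY N₁ T Y)) : SL(2, ℤ)) : GL (Fin 2) ℝ) *
          (mapGL ℝ (g : SL(2, ℤ)) : GL (Fin 2) ℝ) := fun g γ =>
    gamma0_isNormY hY (Subgroup.inclusion gamma0_sq_le (toGamma0 X g)) γ
  obtain ⟨Φ, hΦ⟩ := exists_extension_of_conj_invariant (K := K) hle hn φ (by
    intro g
    have h1 := hφ (toGamma0 X g)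
    have h2 : ψN (dNu (Subgroup.inclusion gamma0_sq_le (toGamma0 X g))) = 1 := by
      rw [dNu_inclusion]
      exact hψX _ (dUnit_toGamma0_mem X g)
    rw [h2, Units.val_one, one_smul] at h1
    exact h1)
  refine ⟨Φ, hΦ, fun b => ?_⟩
  apply resOp_injective hle
  rw [resOp_smul, hΦ]
  have h3 := resOp_conjOp hle (mapGL ℝ (b : SL(2, ℤ)) : GL (Fin 2) ℝ) (gamma0_isNormD X b)
    (gamma0_isNormY hY (Subgroup.inclusion gamma0_sq_le b)) Φ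
  rw [hΦ] at h3
  have h4 := hφ b
  rw [dNu_inclusion] at h4
  exact h3.trans h4

end Descent

end Fermat.Agent.S43lib.B2.Tw
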