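/-
S43lib / B2 / Tw / CoreY (helper5).

**The one-prime partial twist, on homomorphisms.**  `T` squarefree prime to `N₁`, `ψ₁` a character of
`(ℤ/T)ˣ` primitive of odd order at every prime of `T`, `ξ² = ψ₁`, `ψ_N` a character of `(ℤ/N₁)ˣ` trivial on
`X_N ≤ (ℤ/N₁)ˣ`.  From a nonzero `φ ∈ Hom(Γ_Y, A)` (`Y = {u ≡ 1 (T), u mod N₁ ∈ X_N}`) on which `Γ₀(N₁ T)`
acts through `ψ₁ ψ_N` and which is an eigenvector of the `T_ℓ` with eigenvalues `a_ℓ` we get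
`Φ ∈ Hom(GammaD (N₁ T²) X, A)`, `X = {x | x mod N₁ ∈ X_N}`, nonzero, parabolic (if `a_{ℓ₀} ≠ 1 + ℓ₀` for
one `ℓ₀ ≡ 1 (N₁ T²)`), eigenvector of `T_ℓ` with eigenvalue `ξ(ℓ)⁻¹ a_ℓ`, on which `Γ₀(N₁ T²)` acts through
`ψ_N(d mod N₁)`.
-/
import Mathlib
import Fermat.Agent.S43lib.B2.Tw.ExtY

set_option autoImplicit false
set_option linter.unusedSectionVars false

noncomputable section

namespace Fermat.Agent.S43lib.B2.Tw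

open CongruenceSubgroup Matrix.SpecialLinearGroup ModularForm ModularCurve.Period
open Fermat.Agent.S41lib.HC Fermat.Agent.S16lib.LH Fermat.Agent.S29lib.H
open Fermat.Agent.S43lib.B2.Bridge
open P2MW.S_ModularForm_heckeT_slash_eq_self_of_mem_Gamma0.ModularForm.HeckeSlashInvariance
open scoped MatrixGroups

variable (N₁ T : ℕ)

/-- `Y = {u ∈ (ℤ/N₁T)ˣ | u ≡ 1 (T), u mod N₁ ∈ X_N}` -/
def unitsYN (XN : Subgroup (ZMod N₁)ˣ) : Subgroup (ZMod (N₁ * T))ˣ :=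
  unitsOneNT N₁ T ⊓ XN.comap (ZMod.unitsMap (dvd_mul_right N₁ T))

/-- `X = {x ∈ (ℤ/N₁T²)ˣ | x mod N₁ ∈ X_N}` -/
def unitsXN (XN : Subgroup (ZMod N₁)ˣ) : Subgroup (ZMod (N₁ * T * T))ˣ :=
  XN.comap (ZMod.unitsMap (dvd_N_NTT N₁ T))

variable {N₁ T}

theorem unitsYN_le (XN : Subgroup (ZMod N₁)ˣ) : unitsYN N₁ T XN ≤ unitsOneNT N₁ T := inf_le_left

theorem unitsY_unitsYN_le (XN : Subgroup (ZMod N₁)ˣ) :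
    unitsY N₁ T (unitsYN N₁ T XN) ≤ unitsXN N₁ T XN := by
  intro x hx
  have h1 : ZMod.unitsMap (dvd_lvlNT N₁ T) x ∈ unitsYN N₁ T XN := hx
  have h2 : ZMod.unitsMap (dvd_mul_right N₁ T) (ZMod.unitsMap (dvd_lvlNT N₁ T) x) ∈ XN := h1.2
  show ZMod.unitsMap (dvd_N_NTT N₁ T) x ∈ XN
  have h3 : ZMod.unitsMap (dvd_N_NTT N₁ T) x =
      ZMod.unitsMap (dvd_mul_right N₁ T) (ZMod.unitsMap (dvd_lvlNT N₁ T) x) := by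
    rw [← MonoidHom.comp_apply, ZMod.unitsMap_comp]
  rw [h3]
  exact h2

/-- **the one-prime partial twist on homomorphisms** -/
theorem partial_twist_core [NeZero T] [NeZero (N₁ * T * T)] (hsq : Squarefree T)
    (hcop : Nat.Coprime N₁ T) {K : Type*} [Field K] [CharZero K] {A : Type*} [AddCommGroup A]
    [Module K A] [IsAddTorsionFree A]
    (ψ₁ ξ : (ZMod T)ˣ →* Kˣ) (hξ : ∀ u, ξ u * ξ u = ψ₁ u)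
    (hprim : ∀ (t : ℕ) (ht : t ∣ T), t.Prime →
      ∃ x : (ZMod T)ˣ, ZMod.unitsMap (Nat.div_dvd_of_dvd ht) x = 1 ∧ ψ₁ x * ψ₁ x ≠ 1)
    (ψN : (ZMod N₁)ˣ →* Kˣ) (XN : Subgroup (ZMod N₁)ˣ) (hXN : ∀ x ∈ XN, ψN x = 1)
    (φ : H (GammaSY N₁ T (unitsYN N₁ T XN)) A) (hφ0 : φ ≠ 0)
    (hφ : IsEigenY (unitsYN_le XN) K A ψ₁ ψN φ)
    (S : Set ℕ) (a : ℕ → K)
    (hφa : ∀ (ℓ : ℕ) [Fact ℓ.Prime] (hℓ : ¬ ℓ ∣ N₁ * T * T), ℓ ∉ S →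
      heckeSY hℓ (Y := unitsYN N₁ T XN) A φ = a ℓ • φ)
    {ℓ₀ : ℕ} [Fact ℓ₀.Prime] (hℓ₀ : ¬ ℓ₀ ∣ N₁ * T * T) (hℓ₀S : ℓ₀ ∉ S)
    (h1 : ((N₁ * T * T : ℕ) : ℤ) ∣ (ℓ₀ : ℤ) - 1) (hne : a ℓ₀ ≠ 1 + (ℓ₀ : K)) :
    ∃ Φ : H (GammaD (N₁ * T * T) (unitsXN N₁ T XN)) A, Φ ≠ 0 ∧
      IsParabolicHom (GammaD (N₁ * T * T) (unitsXN N₁ T XN)) Φ ∧
      (∀ (ℓ : ℕ) [Fact ℓ.Prime] (hℓ : ¬ ℓ ∣ N₁ * T * T), ℓ ∉ S →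
        ∀ lu : (ZMod T)ˣ, ((lu : (ZMod T)ˣ) : ZMod T) = (ℓ : ZMod T) →
          heckeD hℓ (unitsXN N₁ T XN) A Φ = ((((ξ lu)⁻¹ : Kˣ) : K) * a ℓ) • Φ) ∧
      ∀ b : ↥(Gamma0 (N₁ * T * T)),
        cjD (unitsXN N₁ T XN) b A Φ = ((ψN (dNu2 b) : Kˣ) : K) • Φ := by
  have hT : T ≠ 0 := NeZero.ne T
  have hY : unitsYN N₁ T XN ≤ unitsOneNT N₁ T := unitsYN_le XN
  have hψY : ∀ y ∈ unitsYN N₁ T XN, ψN (ZMod.unitsMap (dvd_mul_right N₁ T) y) = 1 := fun y hy => hXN _ hy.2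
  -- the twist
  set φ' : H (GammaSY N₁ T (unitsYN N₁ T XN)) A := twRY hT hY K A ξ φ with hφ'
  have hφ'0 : φ' ≠ 0 := fun h0 =>
    hφ0 (coreBY hT hY K A hsq hcop ψ₁ ξ ψN hψY hprim φ hφ h0)
  have hφ'a : ∀ (ℓ : ℕ) [Fact ℓ.Prime] (hℓ : ¬ ℓ ∣ N₁ * T * T), ℓ ∉ S →
      ∀ lu : (ZMod T)ˣ, ((lu : (ZMod T)ˣ) : ZMod T) = (ℓ : ZMod T) →
        heckeSY hℓ (Y := unitsYN N₁ T XN) A φ' = ((((ξ lu)⁻¹ : Kˣ) : K) * a ℓ) • φ' := by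
    intro ℓ _ hℓ hℓS lu hlu
    have h2 := twRY_heckeSY hT hY K A ξ hℓ lu hlu φ
    rw [hφa ℓ hℓ hℓS, map_smul] at h2
    rw [mul_smul, hφ', h2, smul_smul, ← Units.val_mul, inv_mul_cancel, Units.val_one, one_smul]
  have hφ'c := cjBY_twRY_of_sq hT hY K A ψ₁ ξ hξ ψN φ hφ
  -- the descent
  obtain ⟨Φ, hΦres, hΦc⟩ := exists_descent hY (unitsXN N₁ T XN) (unitsY_unitsYN_le XN) ψN
    (fun x hx => hXN _ hx) φ' hφ'c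
  have hΦa : ∀ (ℓ : ℕ) [Fact ℓ.Prime] (hℓ : ¬ ℓ ∣ N₁ * T * T), ℓ ∉ S →
      ∀ lu : (ZMod T)ˣ, ((lu : (ZMod T)ˣ) : ZMod T) = (ℓ : ZMod T) →
        heckeD hℓ (unitsXN N₁ T XN) A Φ = ((((ξ lu)⁻¹ : Kˣ) : K) * a ℓ) • Φ := by
    intro ℓ _ hℓ hℓS lu hlu
    refine (heckeD_eigen_iff_resOp (dvd_refl (N₁ * T * T)) (unitsXN N₁ T XN) (unitsY N₁ T (unitsYN N₁ T XN)) hℓ hℓ
      (GammaD_mono (unitsY_unitsYN_le XN)) Φ _).mp ?_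
    rw [hΦres]
    exact hφ'a ℓ hℓ hℓS lu hlu
  refine ⟨Φ, ?_, ?_, hΦa, hΦc⟩
  · intro h0
    apply hφ'0
    rw [← hΦres, h0]
    exact map_zero _
  · have hlu : (((1 : (ZMod T)ˣ) : (ZMod T)ˣ) : ZMod T) = (ℓ₀ : ZMod T) := by
      rw [Units.val_one]
      have h2 : (T : ℤ) ∣ (ℓ₀ : ℤ) - 1 :=
        Dvd.dvd.trans ⟨(N₁ : ℤ) * T, by push_cast; ring⟩ h1
      have h3 := (ZMod.intCast_zmod_eq_zero_iff_dvd _ _).mpr h2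
      push_cast at h3
      exact (sub_eq_zero.mp h3).symm
    have h4 := hΦa ℓ₀ hℓ₀ hℓ₀S 1 hlu
    rw [map_one, inv_one, Units.val_one, one_mul] at h4
    exact isParabolicHom_of_eigen hℓ₀ h1 (unitsXN N₁ T XN) Φ (a ℓ₀) h4 hne

end Fermat.Agent.S43lib.B2.Tw
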