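/-
S43lib / B2 / Tw / Deepen (helper5).

Passage to a deeper level: for `M₁ ∣ M₂` and `X₂ ≤ (X₁ mod M₁)`, restriction
`Hom(GammaD M₁ X₁, A) → Hom(GammaD M₂ X₂, A)` is injective and preserves parabolicity, the eigenvectors of
the normalised `T_ℓ` and the conjugation law for `Γ₀(M₂)`.
-/
import Mathlib
import Fermat.Agent.S43lib.B2.Tw.ExtY

set_option autoImplicit false
set_option linter.unusedSectionVars false

noncomputable section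

namespace Fermat.Agent.S43lib.B2.Tw

open CongruenceSubgroup Matrix.SpecialLinearGroup ModularForm ModularCurve.Period
open Fermat.Agent.S41lib.HC Fermat.Agent.S16lib.LH Fermat.Agent.S29lib.H
open Fermat.Agent.S43lib.B2.Bridge
open P2MW.S_ModularForm_heckeT_slash_eq_self_of_mem_Gamma0.ModularForm.HeckeSlashInvariance
open scoped MatrixGroups

variable {M₁ M₂ : ℕ} (hdvd : M₁ ∣ M₂)

/-- the lower right entry modulo `M₁` of an element of `Γ₀(M₂)` -/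
theorem unitsMap_dUnit_of_dvd (g : ↥(Gamma0 M₂)) :
    ZMod.unitsMap hdvd (dUnit M₂ g) = dUnit M₁ (Subgroup.inclusion (Gamma0_le_of_dvd hdvd) g) := by
  apply Units.ext
  rw [ZMod.unitsMap_val, coe_dUnit', coe_dUnit', ZMod.cast_intCast hdvd]
  rfl

theorem GammaD_le_of_dvd {X₁ : Subgroup (ZMod M₁)ˣ} {X₂ : Subgroup (ZMod M₂)ˣ}
    (hX : X₂ ≤ X₁.comap (ZMod.unitsMap hdvd)) : GammaD M₂ X₂ ≤ GammaD M₁ X₁ := by
  intro γ hγ
  obtain ⟨h0, hX₂⟩ := mem_GammaD.mp hγ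
  refine mem_GammaD.mpr ⟨Gamma0_le_of_dvd hdvd h0, ?_⟩
  have h1 : ZMod.unitsMap hdvd (dUnit M₂ ⟨γ, h0⟩) ∈ X₁ := hX hX₂
  rwa [unitsMap_dUnit_of_dvd] at h1

variable (X₁ : Subgroup (ZMod M₁)ˣ) (X₂ : Subgroup (ZMod M₂)ˣ)

include hdvd in
/-- **passage to a deeper level** -/
theorem deepen [NeZero M₂] (h : GammaD M₂ X₂ ≤ GammaD M₁ X₁) {K : Type*} [Semiring K]
    {A : Type*} [AddCommGroup A] [Module K A] [IsAddTorsionFree A] (Φ : H (GammaD M₁ X₁) A) :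
    (Φ ≠ 0 → resOp h A Φ ≠ 0) ∧
    (IsParabolicHom (GammaD M₁ X₁) Φ → IsParabolicHom (GammaD M₂ X₂) (resOp h A Φ)) ∧
    (∀ (ℓ : ℕ) [Fact ℓ.Prime] (hℓ₁ : ¬ ℓ ∣ M₁) (hℓ₂ : ¬ ℓ ∣ M₂) (c : K),
      heckeD hℓ₁ X₁ A Φ = c • Φ → heckeD hℓ₂ X₂ A (resOp h A Φ) = c • resOp h A Φ) ∧
    (∀ (b : ↥(Gamma0 M₂)) (c : K),
      cjD X₁ (Subgroup.inclusion (Gamma0_le_of_dvd hdvd) b) A Φ = c • Φ →
        cjD X₂ b A (resOp h A Φ) = c • resOp h A Φ) := by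
  refine ⟨fun h0 h1 => h0 ?_, resOp_isParabolicHom h, ?_, ?_⟩
  · apply resOp_injective h
    rw [h1, map_zero]
  · intro ℓ _ hℓ₁ hℓ₂ c hc
    exact (heckeD_eigen_iff_resOp hdvd X₁ X₂ hℓ₁ hℓ₂ h Φ c).mpr hc
  · intro b c hc
    exact cjD_eigen_of_resOp hdvd X₁ X₂ h Φ b c hc

end Fermat.Agent.S43lib.B2.Tw
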