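/-
S43lib / B2 / Tw / GroupsY (helper5).

The groups of the PARTIAL twist.  For coprime `N₁`, `T` and a subgroup `Y` of `(ℤ/N₁T)ˣ` contained in
the kernel of the reduction to `(ℤ/T)ˣ`:

* `GammaSY N₁ T Y = {γ ∈ Γ₀(N₁ T²) | d(γ) mod N₁ T ∈ Y}` (`⊆ Γ₀(N₁ T²) ∩ Γ₁(T)`), as
  `GammaD (N₁ T²) (unitsY N₁ T Y)`;
* it is normalised by `α_u = (1 u/T; 0 1)` and by `Γ₀(N₁ T)` (both preserve the lower right entry
  modulo `N₁ T`).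

(`Y = ker` gives `Bridge.GammaSS N₁ T`; the general `Y` carries a `Γ₁`-type structure at the primes of
`N₁`, e.g. at the prime `v` of the one-prime partial twist.)
-/
import Mathlib
import Fermat.Agent.S43lib.B2.Bridge.Inv

set_option autoImplicit false
set_option linter.unusedSectionVars false

noncomputable section

namespace Fermat.Agent.S43lib.B2.Tw

open CongruenceSubgroup Matrix.SpecialLinearGroup ModularForm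
open Fermat.Agent.S41lib.HC Fermat.Agent.S43lib.B2.Bridge
open P2MW.S_ModularForm_heckeT_slash_eq_self_of_mem_Gamma0.ModularForm.HeckeSlashInvariance
open scoped MatrixGroups

variable (N₁ T : ℕ)

theorem dvd_lvlNT : N₁ * T ∣ N₁ * T * T := Dvd.intro _ rfl

theorem dvd_T_NT : T ∣ N₁ * T := Dvd.intro_left N₁ rfl

/-- the units of `ZMod (N₁ T)` which are `≡ 1` modulo `T` -/
def unitsOneNT : Subgroup (ZMod (N₁ * T))ˣ := (ZMod.unitsMap (dvd_T_NT N₁ T)).ker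

variable (Y : Subgroup (ZMod (N₁ * T))ˣ)

/-- the units of `ZMod (N₁ T²)` whose image modulo `N₁ T` lies in `Y` -/
def unitsY : Subgroup (ZMod (N₁ * T * T))ˣ := Y.comap (ZMod.unitsMap (dvd_lvlNT N₁ T))

/-- `{γ ∈ Γ₀(N₁ T²) | d(γ) mod N₁ T ∈ Y}` -/
def GammaSY : Subgroup SL(2, ℤ) := GammaD (N₁ * T * T) (unitsY N₁ T Y)

variable {N₁ T Y}

/-- the lower right entry modulo `N₁ T` of an element of `Γ₀(N₁ T²)` -/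
theorem unitsMap_dUnit (g : ↥(Gamma0 (N₁ * T * T))) :
    ZMod.unitsMap (dvd_lvlNT N₁ T) (dUnit (N₁ * T * T) g) =
      dUnit (N₁ * T) (Subgroup.inclusion gamma0_sq_le g) := by
  apply Units.ext
  rw [ZMod.unitsMap_val, coe_dUnit', coe_dUnit', ZMod.cast_intCast (dvd_lvlNT N₁ T)]
  rfl

theorem mem_GammaSY {γ : SL(2, ℤ)} :
    γ ∈ GammaSY N₁ T Y ↔
      ∃ h : γ ∈ Gamma0 (N₁ * T * T), dUnit (N₁ * T) ⟨γ, gamma0_sq_le h⟩ ∈ Y := by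
  unfold GammaSY
  rw [mem_GammaD]
  constructor
  · rintro ⟨h, hX⟩
    refine ⟨h, ?_⟩
    have h1 : ZMod.unitsMap (dvd_lvlNT N₁ T) (dUnit (N₁ * T * T) ⟨γ, h⟩) ∈ Y := hX
    rwa [unitsMap_dUnit] at h1
  · rintro ⟨h, hX⟩
    refine ⟨h, ?_⟩
    show ZMod.unitsMap (dvd_lvlNT N₁ T) (dUnit (N₁ * T * T) ⟨γ, h⟩) ∈ Y
    rw [unitsMap_dUnit]
    exact hX

theorem GammaSY_le_Gamma0 : GammaSY N₁ T Y ≤ Gamma0 (N₁ * T * T) := GammaD_le _ _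

theorem GammaSY_le_Gamma0' : GammaSY N₁ T Y ≤ Gamma0 (N₁ * T) :=
  (GammaSY_le_Gamma0 (N₁ := N₁) (T := T) (Y := Y)).trans gamma0_sq_le

/-- the lower right entry modulo `N₁ T` of an element of `GammaSY` lies in `Y` -/
theorem dUnit_mem_of_mem_GammaSY {γ : SL(2, ℤ)} (h : γ ∈ GammaSY N₁ T Y) :
    dUnit (N₁ * T) ⟨γ, GammaSY_le_Gamma0' h⟩ ∈ Y := by
  obtain ⟨h0, hX⟩ := mem_GammaSY.mp h
  exact hX

/-- two elements of `Γ₀(N₁ T)` with congruent lower right entries have the same `dUnit` -/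
theorem dUnit_eq_of_dvd (b b' : ↥(Gamma0 (N₁ * T)))
    (hbb : ((N₁ * T : ℕ) : ℤ) ∣ (b' : SL(2, ℤ)) 1 1 - (b : SL(2, ℤ)) 1 1) :
    dUnit (N₁ * T) b' = dUnit (N₁ * T) b := by
  apply Units.ext
  rw [coe_dUnit', coe_dUnit', ZMod.intCast_eq_intCast_iff_dvd_sub]
  have h2 := hbb.neg_right
  rwa [neg_sub] at h2

theorem GammaSY_le_GammaSS (hY : Y ≤ unitsOneNT N₁ T) : GammaSY N₁ T Y ≤ GammaSS N₁ T := by
  intro γ hγ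
  obtain ⟨h0, hX⟩ := mem_GammaSY.mp hγ
  rw [mem_GammaSS]
  refine ⟨mem_Gamma0_iff_dvd.mp h0, ?_⟩
  have h1 : ZMod.unitsMap (dvd_T_NT N₁ T) (dUnit (N₁ * T) ⟨γ, gamma0_sq_le h0⟩) = 1 := hY hX
  have h2 := congrArg Units.val h1
  rw [ZMod.unitsMap_val, coe_dUnit', Units.val_one, ZMod.cast_intCast (dvd_T_NT N₁ T)] at h2
  have h3 : (((γ 1 1 - 1 : ℤ)) : ZMod T) = 0 := by
    push_cast
    have h4 : ((((⟨γ, gamma0_sq_le h0⟩ : ↥(Gamma0 (N₁ * T))) : SL(2, ℤ)) 1 1 : ℤ) : ZMod T) =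
        ((γ 1 1 : ℤ) : ZMod T) := rfl
    rw [← h4, h2, sub_self]
  exact (ZMod.intCast_zmod_eq_zero_iff_dvd _ _).mp h3

/-- `Γ(N₁ T²) ⊆ GammaSY` -/
theorem Gamma_le_GammaSY : Gamma (N₁ * T * T) ≤ GammaSY N₁ T Y := by
  intro γ hγ
  rw [Gamma_mem] at hγ
  have h0 : γ ∈ Gamma0 (N₁ * T * T) := by
    rw [Gamma0_mem]
    exact hγ.2.2.1
  rw [mem_GammaSY]
  refine ⟨h0, ?_⟩
  have h1 : dUnit (N₁ * T) ⟨γ, gamma0_sq_le h0⟩ = 1 := by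
    apply Units.ext
    rw [coe_dUnit', Units.val_one]
    show ((γ 1 1 : ℤ) : ZMod (N₁ * T)) = 1
    have h2 : ((N₁ * T * T : ℕ) : ℤ) ∣ γ 1 1 - 1 := by
      rw [← ZMod.intCast_zmod_eq_zero_iff_dvd]
      push_cast
      rw [hγ.2.2.2, sub_self]
    have h3 : ((N₁ * T : ℕ) : ℤ) ∣ γ 1 1 - 1 :=
      (Int.natCast_dvd_natCast.mpr (dvd_lvlNT N₁ T)).trans h2
    have h4 := (ZMod.intCast_zmod_eq_zero_iff_dvd _ _).mpr h3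
    push_cast at h4
    exact sub_eq_zero.mp h4
  rw [h1]
  exact Y.one_mem

instance GammaSY_finiteIndex [NeZero (N₁ * T * T)] : (GammaSY N₁ T Y).FiniteIndex :=
  Subgroup.finiteIndex_of_le Gamma_le_GammaSY

/-! ### `α_u` normalises `GammaSY` -/

section AlphaNorm

variable (hT : T ≠ 0) (hY : Y ≤ unitsOneNT N₁ T)

include hT hY in
/-- `α_u` normalises `GammaSY` -/
theorem alpha_isNormY (u : ℤ) (γ : ↥(GammaSY N₁ T Y)) :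
    ∃ κ : ↥(GammaSY N₁ T Y), alphaGL T u * (mapGL ℝ (γ : SL(2, ℤ)) : GL (Fin 2) ℝ) =
      (mapGL ℝ ((κ : ↥(GammaSY N₁ T Y)) : SL(2, ℤ)) : GL (Fin 2) ℝ) * alphaGL T u := by
  have hγSS := GammaSY_le_GammaSS hY γ.2
  obtain ⟨h1, h2⟩ := mem_GammaSS.mp hγSS
  have h0 := dvd_sub_one_of_mem_GammaSS hγSS
  have huv : (T : ℤ) ∣ (γ : SL(2, ℤ)) 1 1 * u - (γ : SL(2, ℤ)) 0 0 * u := by
    have : (γ : SL(2, ℤ)) 1 1 * u - (γ : SL(2, ℤ)) 0 0 * u =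
        ((γ : SL(2, ℤ)) 1 1 - 1) * u - ((γ : SL(2, ℤ)) 0 0 - 1) * u := by ring
    rw [this]
    exact dvd_sub (Dvd.dvd.mul_right h2 u) (Dvd.dvd.mul_right h0 u)
  obtain ⟨κ, hrel, h11, -, -⟩ :=
    alpha_mul_gamma0 hT ⟨(γ : SL(2, ℤ)), GammaSY_le_Gamma0 γ.2⟩ u u huv
  refine ⟨⟨(κ : SL(2, ℤ)), mem_GammaSY.mpr ⟨κ.2, ?_⟩⟩, hrel⟩
  have h3 := dUnit_eq_of_dvd (N₁ := N₁) (T := T)
    ⟨(γ : SL(2, ℤ)), GammaSY_le_Gamma0' γ.2⟩ ⟨(κ : SL(2, ℤ)), gamma0_sq_le κ.2⟩ h11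
  rw [h3]
  exact dUnit_mem_of_mem_GammaSY γ.2

end AlphaNorm

/-! ### `Γ₀(N₁ T)` normalises `GammaSY` -/

section BNorm

variable (hY : Y ≤ unitsOneNT N₁ T)

include hY in
/-- `Γ₀(N₁ T)` normalises `GammaSY` -/
theorem gamma0_isNormY (b : ↥(Gamma0 (N₁ * T))) (γ : ↥(GammaSY N₁ T Y)) :
    ∃ κ : ↥(GammaSY N₁ T Y), (mapGL ℝ (b : SL(2, ℤ)) : GL (Fin 2) ℝ) *
      (mapGL ℝ (γ : SL(2, ℤ)) : GL (Fin 2) ℝ) =
      (mapGL ℝ ((κ : ↥(GammaSY N₁ T Y)) : SL(2, ℤ)) : GL (Fin 2) ℝ) *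
        (mapGL ℝ (b : SL(2, ℤ)) : GL (Fin 2) ℝ) := by
  have hγSS := GammaSY_le_GammaSS hY γ.2
  obtain ⟨κ, hκ⟩ := gamma0_isNorm b (⟨(γ : SL(2, ℤ)), hγSS⟩ : ↥(GammaSS N₁ T))
  -- `κ = b γ b⁻¹`
  have hκeq : ((κ : ↥(GammaSS N₁ T)) : SL(2, ℤ)) = (b : SL(2, ℤ)) * (γ : SL(2, ℤ)) * (b : SL(2, ℤ))⁻¹ := by
    apply mapGL_injective (S := ℝ)
    rw [map_mul, map_mul, map_inv, eq_mul_inv_iff_mul_eq]
    exact hκ.symm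
  have hκ0 : ((κ : ↥(GammaSS N₁ T)) : SL(2, ℤ)) ∈ Gamma0 (N₁ * T * T) := GammaSS_le_Gamma0 κ.2
  refine ⟨⟨((κ : ↥(GammaSS N₁ T)) : SL(2, ℤ)), mem_GammaSY.mpr ⟨hκ0, ?_⟩⟩, hκ⟩
  have h1 : (⟨((κ : ↥(GammaSS N₁ T)) : SL(2, ℤ)), gamma0_sq_le hκ0⟩ : ↥(Gamma0 (N₁ * T))) =
      b * ⟨(γ : SL(2, ℤ)), GammaSY_le_Gamma0' γ.2⟩ * b⁻¹ := by
    apply Subtype.ext
    rw [Subgroup.coe_mul, Subgroup.coe_mul, Subgroup.coe_inv]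
    exact hκeq
  rw [h1, map_mul, map_mul, map_inv, mul_comm (dUnit (N₁ * T) b), mul_inv_cancel_right]
  exact dUnit_mem_of_mem_GammaSY γ.2

end BNorm

end Fermat.Agent.S43lib.B2.Tw
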