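/-
S43lib / B2 / Tw / TwistY (helper5).

The operators on `W = Hom(Γ_Y, A)`, `Γ_Y = GammaSY N₁ T Y` (copy of `Bridge/TwistOp` for the groups with a
`Γ₁`-type structure at `N₁`):
* `twAY u` : `φ ↦ φ ∘ (α_u · α_u⁻¹)`, depending only on `u` modulo `T`, additive in `u`;
* `heckeSY ℓ` : the normalised Hecke operator `T_ℓ` (`ℓ ∤ N₁ T`);
* the commutation `twAY (ℓ u) ∘ T_ℓ = T_ℓ ∘ twAY u`.
-/
import Mathlib
import Fermat.Agent.S43lib.B2.Tw.GroupsY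
import Fermat.Agent.S43lib.B2.Bridge.TwistOp

set_option autoImplicit false
set_option linter.unusedSectionVars false

noncomputable section

namespace Fermat.Agent.S43lib.B2.Tw

open CongruenceSubgroup Matrix.SpecialLinearGroup ModularForm ModularCurve.Period
open Fermat.Agent.S41lib.HC Fermat.Agent.S16lib.LH Fermat.Agent.S29lib.H
open Fermat.Agent.S43lib.B2.Bridge
open P2MW.S_ModularForm_heckeT_slash_eq_self_of_mem_Gamma0.ModularForm.HeckeSlashInvariance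
open scoped MatrixGroups

variable {N₁ T : ℕ} {Y : Subgroup (ZMod (N₁ * T))ˣ} (hT : T ≠ 0) (hY : Y ≤ unitsOneNT N₁ T)

/-! ### The operators `A_u` -/

section TwA

/-- `A_u φ = φ ∘ (α_u · α_u⁻¹)` -/
def twAY (u : ℤ) (A : Type*) [AddCommGroup A] :
    H (GammaSY N₁ T Y) A →+ H (GammaSY N₁ T Y) A :=
  conjOp (alphaGL T u) (alpha_isNormY (N₁ := N₁) (Y := Y) hT hY u) A

theorem twAY_isParabolicHom (u : ℤ) {A : Type*} [AddCommGroup A] {φ : H (GammaSY N₁ T Y) A}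
    (hφ : IsParabolicHom (GammaSY N₁ T Y) φ) : IsParabolicHom (GammaSY N₁ T Y) (twAY hT hY u A φ) :=
  conjOp_isParabolicHom _ _ hφ

/-- `τ^m = (1 m; 0 1)` -/
def tauM (m : ℤ) : SL(2, ℤ) := ⟨!![1, m; 0, 1], by simp [Matrix.det_fin_two_of]⟩

theorem tauM_mem_GammaSY (N₁ T : ℕ) (Y : Subgroup (ZMod (N₁ * T))ˣ) (m : ℤ) :
    tauM m ∈ GammaSY N₁ T Y := by
  have h0 : tauM m ∈ Gamma0 (N₁ * T * T) := by
    rw [mem_Gamma0_iff_dvd]
    show ((N₁ * T * T : ℕ) : ℤ) ∣ 0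
    exact dvd_zero _
  rw [mem_GammaSY]
  refine ⟨h0, ?_⟩
  have h1 : dUnit (N₁ * T) ⟨tauM m, gamma0_sq_le h0⟩ = 1 := by
    apply Units.ext
    rw [coe_dUnit', Units.val_one]
    show (((1 : ℤ)) : ZMod (N₁ * T)) = 1
    exact Int.cast_one
  rw [h1]
  exact Y.one_mem

/-- `τ^m = (1 m; 0 1)` as an element of `GammaSY` -/
def tauPowY (N₁ T : ℕ) (Y : Subgroup (ZMod (N₁ * T))ˣ) (m : ℤ) : ↥(GammaSY N₁ T Y) :=
  ⟨tauM m, tauM_mem_GammaSY N₁ T Y m⟩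

theorem twAY_add (u v : ℤ) {A : Type*} [AddCommGroup A] (φ : H (GammaSY N₁ T Y) A) :
    twAY hT hY (u + v) A φ = twAY hT hY v A (twAY hT hY u A φ) := by
  unfold twAY
  rw [← conjOp_mul (alphaGL T v) (alphaGL T u) (alpha_isNormY (N₁ := N₁) (Y := Y) hT hY v)
    (alpha_isNormY (N₁ := N₁) (Y := Y) hT hY u)
    (by rw [← alphaGL_add]; exact alpha_isNormY (N₁ := N₁) (Y := Y) hT hY (u + v))]
  exact congrFun (congrArg DFunLike.coe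
    (conjOp_congr _ _ (alphaGL_add T u v) _ _ A)) φ

theorem twAY_mul_T (m : ℤ) {A : Type*} [AddCommGroup A] (φ : H (GammaSY N₁ T Y) A) :
    twAY hT hY (m * T) A φ = φ := by
  unfold twAY
  have hg : alphaGL T (m * T) =
      (mapGL ℝ ((tauPowY N₁ T Y m : ↥(GammaSY N₁ T Y)) : SL(2, ℤ)) : GL (Fin 2) ℝ) :=
    alphaGL_mul_self T hT m
  have h' : ∀ γ : ↥(GammaSY N₁ T Y), ∃ κ : ↥(GammaSY N₁ T Y),
      (mapGL ℝ ((tauPowY N₁ T Y m : ↥(GammaSY N₁ T Y)) : SL(2, ℤ)) : GL (Fin 2) ℝ) *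
        (mapGL ℝ (γ : SL(2, ℤ)) : GL (Fin 2) ℝ) =
      (mapGL ℝ ((κ : ↥(GammaSY N₁ T Y)) : SL(2, ℤ)) : GL (Fin 2) ℝ) *
        (mapGL ℝ ((tauPowY N₁ T Y m : ↥(GammaSY N₁ T Y)) : SL(2, ℤ)) : GL (Fin 2) ℝ) := by
    rw [← hg]
    exact alpha_isNormY (N₁ := N₁) (Y := Y) hT hY (m * T)
  rw [congrFun (congrArg DFunLike.coe (conjOp_congr _ _ hg _ h' A)) φ]
  exact conjOp_inner (tauPowY N₁ T Y m) h' φ

theorem twAY_zero {A : Type*} [AddCommGroup A] (φ : H (GammaSY N₁ T Y) A) :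
    twAY hT hY 0 A φ = φ := by
  have := twAY_mul_T (N₁ := N₁) hT hY 0 φ
  rwa [zero_mul] at this

/-- `A_u` only depends on `u` modulo `T` -/
theorem twAY_congr {u v : ℤ} (huv : (T : ℤ) ∣ v - u) {A : Type*} [AddCommGroup A]
    (φ : H (GammaSY N₁ T Y) A) : twAY hT hY u A φ = twAY hT hY v A φ := by
  obtain ⟨m, hm⟩ := huv
  have hv : v = m * T + u := by linear_combination hm
  rw [hv, twAY_add, twAY_mul_T]

end TwA


/-! ### The Hecke operators on `W` and their commutation with `A_u` -/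

section Hecke

variable {ℓ : ℕ} [Fact ℓ.Prime] (hℓ : ¬ ℓ ∣ N₁ * T * T)

/-- the normalised `T_ℓ` on `Hom(Γ**, A)` -/
def heckeSY (A : Type*) [AddCommGroup A] : H (GammaSY N₁ T Y) A →+ H (GammaSY N₁ T Y) A :=
  heckeD hℓ (unitsY N₁ T Y) A

theorem heckeSY_isParabolicHom {A : Type*} [AddCommGroup A] {φ : H (GammaSY N₁ T Y) A}
    (hφ : IsParabolicHom (GammaSY N₁ T Y) φ) : IsParabolicHom (GammaSY N₁ T Y) (heckeSY hℓ (Y := Y) A φ) :=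
  heckeD_isParabolicHom hℓ _ hφ

include hℓ in
/-- the conjugate of `γ ∈ Γ**` by `α_{ℓ u}` is congruent to `γ` modulo `ℓ` -/
theorem tPerm_conjHom_alphaY (u : ℤ) (γ : ↥(GammaSY N₁ T Y)) :
    tPerm ℓ (toGamma0 (unitsY N₁ T Y)
      (conjHom (alphaGL T (ℓ * u)) (alpha_isNormY (N₁ := N₁) (Y := Y) hT hY (ℓ * u)) γ)) =
      tPerm ℓ (toGamma0 (unitsY N₁ T Y) γ) := by
  have hγSS := GammaSY_le_GammaSS hY γ.2
  obtain ⟨h1, h2⟩ := mem_GammaSS.mp hγSS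
  have h0 := dvd_sub_one_of_mem_GammaSS hγSS
  have huv : (T : ℤ) ∣ (γ : SL(2, ℤ)) 1 1 * (ℓ * u) - (γ : SL(2, ℤ)) 0 0 * (ℓ * u) := by
    have : (γ : SL(2, ℤ)) 1 1 * (ℓ * u) - (γ : SL(2, ℤ)) 0 0 * (ℓ * u) =
        ((γ : SL(2, ℤ)) 1 1 - 1) * (ℓ * u) - ((γ : SL(2, ℤ)) 0 0 - 1) * (ℓ * u) := by ring
    rw [this]
    exact dvd_sub (Dvd.dvd.mul_right h2 _) (Dvd.dvd.mul_right h0 _)
  obtain ⟨κ, hrel, -, -, hmod⟩ :=
    alpha_mul_gamma0 hT ⟨(γ : SL(2, ℤ)), GammaSY_le_Gamma0 γ.2⟩ (ℓ * u) (ℓ * u) huv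
  have hκ := conjHom_unique (alphaGL T (ℓ * u)) (alpha_isNormY (N₁ := N₁) (Y := Y) hT hY (ℓ * u)) γ
    (κ : SL(2, ℤ)) hrel
  have hcong := hmod (ℓ : ℤ) (dvd_mul_right _ _) (dvd_mul_right _ _) (isCoprime_ell_T hℓ)
  unfold tPerm
  congr 1
  show redMatrix ℓ ((conjHom (alphaGL T (ℓ * u)) (alpha_isNormY (N₁ := N₁) (Y := Y) hT hY (ℓ * u)) γ :
    ↥(GammaSY N₁ T Y)) : SL(2, ℤ)) = redMatrix ℓ (γ : SL(2, ℤ))
  rw [hκ]
  exact redMatrix_eq_of_dvd _ _ hcong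

end Hecke


section Commute

variable {ℓ : ℕ} [Fact ℓ.Prime] (hℓ : ¬ ℓ ∣ N₁ * T * T)

/-- **`A_{ℓ u} T_ℓ = T_ℓ A_u`** -/
theorem twAY_heckeSY (u : ℤ) {A : Type*} [AddCommGroup A] (φ : H (GammaSY N₁ T Y) A) :
    twAY hT hY (ℓ * u) A (heckeSY hℓ (Y := Y) A φ) = heckeSY hℓ (Y := Y) A (twAY hT hY u A φ) := by
  have hℓ0 : ℓ ≠ 0 := (Fact.out : ℓ.Prime).ne_zero
  -- the two composite data
  let D₁ : CosetData ↥(GammaSY N₁ T Y) ↥(GammaSY N₁ T Y) (Unit × OnePoint (ZMod ℓ)) :=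
    (CosetData.ofHom (conjHom (alphaGL T (ℓ * u))
      (alpha_isNormY (N₁ := N₁) (Y := Y) hT hY (ℓ * u)))).comp (tDataD hℓ (unitsY N₁ T Y))
  let D₂ : CosetData ↥(GammaSY N₁ T Y) ↥(GammaSY N₁ T Y) (OnePoint (ZMod ℓ) × Unit) :=
    (tDataD hℓ (unitsY N₁ T Y)).comp (CosetData.ofHom (conjHom (alphaGL T u)
      (alpha_isNormY (N₁ := N₁) (Y := Y) hT hY u)))
  have hr₁ : HasReps D₁ (fun p : Unit × OnePoint (ZMod ℓ) => repN hℓ p.2 * alphaGL T (ℓ * u)) :=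
    hasReps_conj_comp (Γ := GammaSY N₁ T Y) (Γ' := GammaSY N₁ T Y) (Γ'' := GammaSY N₁ T Y) _ _ _ _
      (tDataD_hasReps hℓ (unitsY N₁ T Y))
  have hr₂ : HasReps D₂ (fun p : OnePoint (ZMod ℓ) × Unit => alphaGL T u * repN hℓ p.1) :=
    hasReps_comp_conj (Γ := GammaSY N₁ T Y) (Γ' := GammaSY N₁ T Y) (Γ'' := GammaSY N₁ T Y) _ _ _ _
      (tDataD_hasReps hℓ (unitsY N₁ T Y))
  -- the correcting element at `∞`
  obtain ⟨κ, hκrel, hκ11, -, -⟩ := alpha_mul_gamma0 hT (sigmaL hℓ) u (ℓ * ℓ * u) (sigmaL_dvd hT hℓ u)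
  have hmem : ((κ * (sigmaL hℓ)⁻¹ : ↥(Gamma0 (N₁ * T * T))) : SL(2, ℤ)) ∈ GammaSY N₁ T Y := by
    apply mem_GammaD_of_dUnit
    show ZMod.unitsMap (dvd_lvlNT N₁ T) (dUnit (N₁ * T * T) (κ * (sigmaL hℓ)⁻¹)) ∈ Y
    have h6 : ZMod.unitsMap (dvd_lvlNT N₁ T) (dUnit (N₁ * T * T) (κ * (sigmaL hℓ)⁻¹)) = 1 := by
      rw [map_mul, map_inv, map_mul, map_inv, mul_inv_eq_one]
      apply Units.ext
      rw [ZMod.unitsMap_val, ZMod.unitsMap_val, coe_dUnit', coe_dUnit',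
        ZMod.cast_intCast (dvd_lvlNT N₁ T), ZMod.cast_intCast (dvd_lvlNT N₁ T)]
      have h5 := hκ11.neg_right
      rw [neg_sub] at h5
      exact ((ZMod.intCast_eq_intCast_iff_dvd_sub _ _ _).mpr h5)
    rw [h6]
    exact Y.one_mem
  have key := op_eq_of_reps D₁ D₂ _ _ hr₁ hr₂ (Equiv.prodComm Unit (OnePoint (ZMod ℓ)))
    (by
      rintro γ ⟨⟨⟩, y⟩
      show (tPerm ℓ (toGamma0 (unitsY N₁ T Y) γ) y, ()) =
        (tPerm ℓ (toGamma0 (unitsY N₁ T Y) (conjHom (alphaGL T (ℓ * u))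
          (alpha_isNormY (N₁ := N₁) (Y := Y) hT hY (ℓ * u)) γ)) y, ())
      rw [tPerm_conjHom_alphaY hT hY hℓ u γ])
    (fun p => p.2.elim ⟨_, hmem⟩ (fun _ => 1))
    (by
      rintro ⟨⟨⟩, y⟩
      induction y using OnePoint.rec with
      | infty =>
        show alphaGL T u * repN hℓ OnePoint.infty =
          (mapGL ℝ (((κ * (sigmaL hℓ)⁻¹ : ↥(Gamma0 (N₁ * T * T))) : SL(2, ℤ))) : GL (Fin 2) ℝ) *
            (repN hℓ OnePoint.infty * alphaGL T (ℓ * u))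
        unfold repN
        rw [sN_infty, heckeRep_infty, ← mul_assoc, hκrel, mul_assoc, alpha_mul_heckeDiag T ℓ hℓ0 u,
          Subgroup.coe_mul, Subgroup.coe_inv, map_mul, map_inv]
        group
      | coe j =>
        show alphaGL T u * repN hℓ (j : OnePoint (ZMod ℓ)) =
          (mapGL ℝ (1 : SL(2, ℤ)) : GL (Fin 2) ℝ) *
            (repN hℓ (j : OnePoint (ZMod ℓ)) * alphaGL T (ℓ * u))
        have h1 : ((sN hℓ (j : OnePoint (ZMod ℓ)) : ↥(Gamma0 (N₁ * T * T))) : SL(2, ℤ)) = 1 := rfl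
        unfold repN
        rw [h1, heckeRep_coe]
        simp only [map_one, one_mul]
        exact alpha_mul_heckeMatrix T ℓ hℓ0 u j.val)
    A
  have h1 : D₂.op A φ = D₁.op A φ := congrFun (congrArg DFunLike.coe key) φ
  have h2 : D₂.op A = (heckeSY hℓ (Y := Y) A).comp (twAY hT hY u A) :=
    op_comp_conjOp (Γ := GammaSY N₁ T Y) (Γ' := GammaSY N₁ T Y) (Γ'' := GammaSY N₁ T Y) _ _ _ A
  have h3 : D₁.op A = (twAY hT hY (ℓ * u) A).comp (heckeSY hℓ (Y := Y) A) :=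
    conjOp_comp_op (Γ := GammaSY N₁ T Y) (Γ' := GammaSY N₁ T Y) (Γ'' := GammaSY N₁ T Y) _ _ _ A
  rw [h2, h3] at h1
  exact h1.symm

end Commute

end Fermat.Agent.S43lib.B2.Tw
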