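/-
S43lib / B2 / Tw / RY (helper5).

The twisting operator on `W = Hom(Γ_Y, A)` (`A` a vector space over a field `K`), `Γ_Y = GammaSY N₁ T Y`:
`R_ξ = ∑_{u ∈ (ℤ/T)ˣ} ξ(u) A_u`, and the commutation `R_ξ T_ℓ = ξ(ℓ) T_ℓ R_ξ`.
(Copy of `Bridge/R` with `T₁ = T`, `T₂ = 1`.)
-/
import Mathlib
import Fermat.Agent.S43lib.B2.Tw.TwistY
import Fermat.Agent.S43lib.B2.Bridge.R

set_option autoImplicit false
set_option linter.unusedSectionVars false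

noncomputable section

namespace Fermat.Agent.S43lib.B2.Tw

open CongruenceSubgroup Matrix.SpecialLinearGroup ModularForm ModularCurve.Period
open Fermat.Agent.S41lib.HC Fermat.Agent.S16lib.LH Fermat.Agent.S29lib.H
open Fermat.Agent.S43lib.B2.Bridge
open P2MW.S_ModularForm_heckeT_slash_eq_self_of_mem_Gamma0.ModularForm.HeckeSlashInvariance
open scoped MatrixGroups

variable {N₁ T : ℕ} {Y : Subgroup (ZMod (N₁ * T))ˣ} (hT : T ≠ 0) (hY : Y ≤ unitsOneNT N₁ T)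
variable (K : Type*) [Field K] (A : Type*) [AddCommGroup A] [Module K A]

/-- `A_u` as a `K`-linear map -/
def twALY (u : ℤ) : Module.End K (H (GammaSY N₁ T Y) A) :=
  (CosetData.ofHom (conjHom (alphaGL T u) (alpha_isNormY (N₁ := N₁) (Y := Y) hT hY u))).opₗ K A

@[simp] theorem twALY_apply (u : ℤ) (φ : H (GammaSY N₁ T Y) A) :
    twALY hT hY K A u φ = twAY hT hY u A φ := rfl

/-- `T_ℓ` on `W` as a `K`-linear map -/
def heckeSYL {ℓ : ℕ} [Fact ℓ.Prime] (hℓ : ¬ ℓ ∣ N₁ * T * T) :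
    Module.End K (H (GammaSY N₁ T Y) A) :=
  (tDataD hℓ (unitsY N₁ T Y)).opₗ K A

@[simp] theorem heckeSYL_apply {ℓ : ℕ} [Fact ℓ.Prime] (hℓ : ¬ ℓ ∣ N₁ * T * T)
    (φ : H (GammaSY N₁ T Y) A) : heckeSYL (Y := Y) K A hℓ φ = heckeSY hℓ (Y := Y) A φ := rfl

theorem twAY_smul (u : ℤ) (c : K) (φ : H (GammaSY N₁ T Y) A) :
    twAY hT hY u A (c • φ) = c • twAY hT hY u A φ := (twALY hT hY K A u).map_smul c φ

theorem heckeSY_smul {ℓ : ℕ} [Fact ℓ.Prime] (hℓ : ¬ ℓ ∣ N₁ * T * T) (c : K)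
    (φ : H (GammaSY N₁ T Y) A) :
    heckeSY hℓ (Y := Y) A (c • φ) = c • heckeSY hℓ (Y := Y) A φ :=
  (heckeSYL (Y := Y) K A hℓ).map_smul c φ

variable [NeZero T]

/-- `R_ξ = ∑_u ξ(u) A_u` -/
def twRY (ξ : (ZMod T)ˣ →* Kˣ) : Module.End K (H (GammaSY N₁ T Y) A) :=
  ∑ u : (ZMod T)ˣ, ((ξ u : Kˣ) : K) • twALY hT hY K A (uLift u)

theorem twRY_apply (ξ : (ZMod T)ˣ →* Kˣ) (φ : H (GammaSY N₁ T Y) A) :
    twRY hT hY K A ξ φ = ∑ u : (ZMod T)ˣ, ((ξ u : Kˣ) : K) • twAY hT hY (uLift u) A φ := by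
  unfold twRY
  rw [LinearMap.sum_apply]
  rfl

/-- **`R_ξ T_ℓ = ξ(ℓ) T_ℓ R_ξ`** -/
theorem twRY_heckeSY (ξ : (ZMod T)ˣ →* Kˣ) {ℓ : ℕ} [Fact ℓ.Prime]
    (hℓ : ¬ ℓ ∣ N₁ * T * T) (lu : (ZMod T)ˣ) (hlu : ((lu : (ZMod T)ˣ) : ZMod T) = (ℓ : ZMod T))
    (φ : H (GammaSY N₁ T Y) A) :
    twRY hT hY K A ξ (heckeSY hℓ (Y := Y) A φ) =
      ((ξ lu : Kˣ) : K) • heckeSY hℓ (Y := Y) A (twRY hT hY K A ξ φ) := by
  rw [twRY_apply, twRY_apply, map_sum, Finset.smul_sum]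
  rw [← Equiv.sum_comp (Equiv.mulLeft lu)]
  refine Finset.sum_congr rfl fun w _ => ?_
  rw [Equiv.coe_mulLeft, heckeSY_smul, smul_smul, map_mul, Units.val_mul]
  congr 1
  have hcong : (T : ℤ) ∣ (ℓ : ℤ) * uLift w - uLift (lu * w) := by
    rw [← ZMod.intCast_zmod_eq_zero_iff_dvd]
    push_cast
    rw [uLift_cast, uLift_cast, Units.val_mul, hlu, sub_self]
  rw [twAY_congr hT hY hcong, twAY_heckeSY hT hY hℓ]

end Fermat.Agent.S43lib.B2.Tw
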